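/-
A2 / route G, obligation C1 COVER-EXIST (helper852).  Mathlib only.

Setting: `F` a field containing a primitive `m`-th root of unity `ζ`, `τ : F ≃+* F` a ring
automorphism of FINITE ORDER (`τ^[r] = id`, `0 < r`), `g ∈ Fˣ`.

Output (`exists_kummer_cover`): a finite Galois extension `L / F` (in the same universe), a ring
automorphism `τ' : L ≃+* L` extending `τ`, and elements `y i ∈ L` (`i : ℕ`) with
`y i ^ m = τ^[i] g`, `τ' (y i) = y (i + 1)`, `L = F(y i : i)`.

Companion lemmas (for any such `L`), in the shape of the hypotheses of `A2.H12.wallG`: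
* `galSubgroup F L : Subgroup (L ≃+* L)` (`= Γ`), `conj_mem_galSubgroup` (`hnorm`),
* `exists_root_mul_of_mem_galSubgroup` (`hζ`: `σ y = ζ' * y`, `τ' ζ' = ζ'`),
* `exists_pow_of_invariant` (exit: `τ' y / y` `Γ`-invariant `⇒ τ g = h ^ m * g` with `h ∈ F`).
-/
import Mathlib.FieldTheory.Galois.Basic
import Mathlib.FieldTheory.SeparableClosure
import Mathlib.FieldTheory.IsAlgClosed.AlgebraicClosure
import Mathlib.FieldTheory.Normal.Closure
import Mathlib.RingTheory.RootsOfUnity.PrimitiveRoots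
import Mathlib.Algebra.Ring.Aut

set_option autoImplicit false

noncomputable section

namespace Fermat.Agent.A2.H852

open Polynomial IntermediateField

universe u v

section Ratio

variable {F : Type u} [Field F] {K : Type v} [Field K] [Algebra F K]

/-- Two `m`-th roots of the same element differ by an `m`-th root of unity of the base field. -/
theorem exists_root_of_unity_mul {m : ℕ} (hm : 0 < m) {ζ : F} (hζ : IsPrimitiveRoot ζ m)
    {a b : K} (hb : b ≠ 0) (h : a ^ m = b ^ m) :
    ∃ ξ : F, ξ ^ m = 1 ∧ a = algebraMap F K ξ * b := by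
  have : NeZero m := ⟨hm.ne'⟩
  have hζ' : IsPrimitiveRoot (algebraMap F K ζ) m :=
    hζ.map_of_injective (algebraMap F K).injective
  have h1 : (a / b) ^ m = 1 := by rw [div_pow, h, div_self (pow_ne_zero _ hb)]
  obtain ⟨i, -, hi⟩ := hζ'.eq_pow_of_pow_eq_one h1
  refine ⟨ζ ^ i, ?_, ?_⟩
  · rw [← pow_mul, mul_comm, pow_mul, hζ.pow_eq_one, one_pow]
  · rw [map_pow, hi, div_mul_cancel₀ _ hb]

/-- An automorphism fixing a primitive `m`-th root of unity fixes every `m`-th root of unity. -/
theorem map_eq_of_pow_eq_one {m : ℕ} (hm : 0 < m) {ζ : F} (hζ : IsPrimitiveRoot ζ m)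
    (τ : F ≃+* F) (hτζ : τ ζ = ζ) {ξ : F} (hξ : ξ ^ m = 1) : τ ξ = ξ := by
  have : NeZero m := ⟨hm.ne'⟩
  obtain ⟨i, -, rfl⟩ := hζ.eq_pow_of_pow_eq_one hξ
  rw [map_pow, hτζ]

end Ratio

section Iterate

variable {F : Type u} [Field F]

/-- Reduction of the exponent modulo the order. -/
theorem iterate_mod (τ : F ≃+* F) {r : ℕ} (hτr : ∀ a, τ^[r] a = a) (i : ℕ) (a : F) :
    τ^[i] a = τ^[i % r] a := by
  have key : ∀ k : ℕ, ∀ a, τ^[r * k] a = a := by
    intro k
    induction k with
    | zero => intro a; simp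
    | succ k ih =>
      intro a
      rw [Nat.mul_succ, Function.iterate_add_apply, hτr, ih]
  conv_lhs => rw [← Nat.mod_add_div i r]
  rw [Function.iterate_add_apply, key]

theorem symm_eq_iterate (τ : F ≃+* F) {r : ℕ} (hr : 0 < r) (hτr : ∀ a, τ^[r] a = a) (a : F) :
    τ.symm a = τ^[r - 1] a := by
  apply τ.injective
  rw [RingEquiv.apply_symm_apply, ← Function.iterate_succ_apply' τ]
  have : (r - 1).succ = r := Nat.succ_pred_eq_of_pos hr
  rw [this, hτr]

theorem iterate_ne_zero (τ : F ≃+* F) {g : F} (hg : g ≠ 0) (i : ℕ) : τ^[i] g ≠ 0 := by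
  induction i with
  | zero => simpa using hg
  | succ i ih =>
    rw [Function.iterate_succ_apply']
    exact (map_ne_zero τ).mpr ih

end Iterate


section Closure

variable {F : Type u} [Field F]

/-- An extension of the ring automorphism `τ` of `F` to the algebraic closure. -/
def tauBar (τ : F ≃+* F) : AlgebraicClosure F ≃+* AlgebraicClosure F :=
  IsAlgClosure.equivOfEquiv (AlgebraicClosure F) (AlgebraicClosure F) τ

theorem tauBar_algebraMap (τ : F ≃+* F) (a : F) :
    tauBar τ (algebraMap F (AlgebraicClosure F) a) = algebraMap F (AlgebraicClosure F) (τ a) :=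
  IsAlgClosure.equivOfEquiv_algebraMap _ _ τ a

theorem tauBar_symm_algebraMap (τ : F ≃+* F) (a : F) :
    (tauBar τ).symm (algebraMap F (AlgebraicClosure F) a) =
      algebraMap F (AlgebraicClosure F) (τ.symm a) :=
  IsAlgClosure.equivOfEquiv_symm_algebraMap _ _ τ a

/-- The set of all `m`-th roots of all `τ^[i] g` in the algebraic closure. -/
def kummerSet (τ : F ≃+* F) (m : ℕ) (g : F) : Set (AlgebraicClosure F) :=
  {z | ∃ i : ℕ, z ^ m = algebraMap F (AlgebraicClosure F) (τ^[i] g)}

/-- The cover field `F(z : z ^ m = τ^[i] g)` inside the algebraic closure. -/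
def coverField (τ : F ≃+* F) (m : ℕ) (g : F) : IntermediateField F (AlgebraicClosure F) :=
  adjoin F (kummerSet τ m g)

theorem kummerSet_subset (τ : F ≃+* F) (m : ℕ) (g : F) :
    kummerSet τ m g ⊆ coverField τ m g :=
  subset_adjoin F _

theorem tauBar_mem_kummerSet (τ : F ≃+* F) (m : ℕ) (g : F) {z : AlgebraicClosure F}
    (hz : z ∈ kummerSet τ m g) : tauBar τ z ∈ kummerSet τ m g := by
  obtain ⟨i, hi⟩ := hz
  refine ⟨i + 1, ?_⟩
  rw [← map_pow, hi, tauBar_algebraMap, Function.iterate_succ_apply']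

theorem tauBar_symm_mem_kummerSet (τ : F ≃+* F) (m : ℕ) (g : F) {r : ℕ} (hr : 0 < r)
    (hτr : ∀ a, τ^[r] a = a) {z : AlgebraicClosure F}
    (hz : z ∈ kummerSet τ m g) : (tauBar τ).symm z ∈ kummerSet τ m g := by
  obtain ⟨i, hi⟩ := hz
  refine ⟨(r - 1) + i, ?_⟩
  rw [← map_pow, hi, tauBar_symm_algebraMap, symm_eq_iterate τ hr hτr,
    Function.iterate_add_apply]

theorem algHom_mem_kummerSet (τ : F ≃+* F) (m : ℕ) (g : F)
    (σ : AlgebraicClosure F →ₐ[F] AlgebraicClosure F) {z : AlgebraicClosure F}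
    (hz : z ∈ kummerSet τ m g) : σ z ∈ kummerSet τ m g := by
  obtain ⟨i, hi⟩ := hz
  exact ⟨i, by rw [← map_pow, hi, AlgHom.commutes]⟩

/-- `coverField` is stable under `tauBar`. -/
theorem tauBar_mem_coverField (τ : F ≃+* F) (m : ℕ) (g : F) {x : AlgebraicClosure F}
    (hx : x ∈ coverField τ m g) : tauBar τ x ∈ coverField τ m g := by
  induction hx using IntermediateField.adjoin_induction with
  | mem z hz => exact kummerSet_subset τ m g (tauBar_mem_kummerSet τ m g hz)
  | algebraMap a => rw [tauBar_algebraMap]; exact (coverField τ m g).algebraMap_mem _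
  | add x y _ _ hx hy => rw [map_add]; exact add_mem hx hy
  | inv x _ hx => rw [map_inv₀]; exact inv_mem hx
  | mul x y _ _ hx hy => rw [map_mul]; exact mul_mem hx hy

/-- `coverField` is stable under the inverse of `tauBar`. -/
theorem tauBar_symm_mem_coverField (τ : F ≃+* F) (m : ℕ) (g : F) {r : ℕ} (hr : 0 < r)
    (hτr : ∀ a, τ^[r] a = a) {x : AlgebraicClosure F}
    (hx : x ∈ coverField τ m g) : (tauBar τ).symm x ∈ coverField τ m g := by
  induction hx using IntermediateField.adjoin_induction with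
  | mem z hz => exact kummerSet_subset τ m g (tauBar_symm_mem_kummerSet τ m g hr hτr hz)
  | algebraMap a => rw [tauBar_symm_algebraMap]; exact (coverField τ m g).algebraMap_mem _
  | add x y _ _ hx hy => rw [map_add]; exact add_mem hx hy
  | inv x _ hx => rw [map_inv₀]; exact inv_mem hx
  | mul x y _ _ hx hy => rw [map_mul]; exact mul_mem hx hy

/-- The cover is normal. -/
theorem normal_coverField (τ : F ≃+* F) (m : ℕ) (g : F) : Normal F (coverField τ m g) := by
  rw [IntermediateField.normal_iff_forall_map_le (L := AlgebraicClosure F)]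
  intro σ
  rw [coverField, IntermediateField.adjoin_map]
  apply IntermediateField.adjoin_le_iff.mpr
  rintro _ ⟨z, hz, rfl⟩
  exact kummerSet_subset τ m g (algHom_mem_kummerSet τ m g σ hz)

/-- The cover is separable. -/
theorem isSeparable_coverField (τ : F ≃+* F) {m : ℕ} (hm : 0 < m) {ζ : F}
    (hζ : IsPrimitiveRoot ζ m) {g : F} (hg : g ≠ 0) :
    Algebra.IsSeparable F (coverField τ m g) := by
  have : NeZero m := ⟨hm.ne'⟩
  have hmF : (m : F) ≠ 0 := (hζ.neZero' (n := m)).out
  rw [coverField, IntermediateField.isSeparable_adjoin_iff_isSeparable]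
  rintro z ⟨i, hi⟩
  have hsep : (X ^ m - C (τ^[i] g) : F[X]).Separable :=
    separable_X_pow_sub_C _ hmF (iterate_ne_zero τ hg i)
  have hroot : aeval z (X ^ m - C (τ^[i] g) : F[X]) = 0 := by
    simp [hi]
  exact hsep.of_dvd (minpoly.dvd F z hroot)

/-- The set of generators is finite. -/
theorem finite_kummerSet (τ : F ≃+* F) {m : ℕ} (hm : 0 < m) {r : ℕ} (hr : 0 < r)
    (hτr : ∀ a, τ^[r] a = a) (g : F) : (kummerSet τ m g).Finite := by
  have hsub : kummerSet τ m g ⊆
      ⋃ i ∈ Finset.range r, (X ^ m - C (τ^[i] g) : F[X]).rootSet (AlgebraicClosure F) := by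
    rintro z ⟨i, hi⟩
    simp only [Set.mem_iUnion, Finset.mem_range]
    refine ⟨i % r, Nat.mod_lt _ hr, ?_⟩
    rw [Polynomial.mem_rootSet]
    refine ⟨?_, ?_⟩
    · exact X_pow_sub_C_ne_zero hm _
    · rw [← iterate_mod τ hτr i g]
      simp [hi]
  refine Set.Finite.subset ?_ hsub
  exact Set.Finite.biUnion (Finset.range r).finite_toSet fun i _ => Polynomial.rootSet_finite _ _

/-- The cover is finite-dimensional. -/
theorem finiteDimensional_coverField (τ : F ≃+* F) {m : ℕ} (hm : 0 < m) {r : ℕ} (hr : 0 < r)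
    (hτr : ∀ a, τ^[r] a = a) (g : F) : FiniteDimensional F (coverField τ m g) := by
  have := (finite_kummerSet τ hm hr hτr g).to_subtype
  exact IntermediateField.finiteDimensional_adjoin fun x _ => Algebra.IsIntegral.isIntegral x

/-- The restriction of `tauBar` to the cover. -/
def tauCover (τ : F ≃+* F) (m : ℕ) (g : F) {r : ℕ} (hr : 0 < r) (hτr : ∀ a, τ^[r] a = a) :
    coverField τ m g ≃+* coverField τ m g where
  toFun x := ⟨tauBar τ x, tauBar_mem_coverField τ m g x.2⟩
  invFun x := ⟨(tauBar τ).symm x, tauBar_symm_mem_coverField τ m g hr hτr x.2⟩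
  left_inv x := Subtype.ext (by simp)
  right_inv x := Subtype.ext (by simp)
  map_mul' x y := Subtype.ext (by simp)
  map_add' x y := Subtype.ext (by simp)

theorem coe_tauCover (τ : F ≃+* F) (m : ℕ) (g : F) {r : ℕ} (hr : 0 < r)
    (hτr : ∀ a, τ^[r] a = a) (x : coverField τ m g) :
    ((tauCover τ m g hr hτr x : coverField τ m g) : AlgebraicClosure F) = tauBar τ x := rfl


/-- **C1 COVER-EXIST.**  A `τ`-stable finite Galois Kummer cover with a lift of `τ`. -/
theorem exists_kummer_cover {m : ℕ} (hm : 0 < m) {ζ : F} (hζ : IsPrimitiveRoot ζ m)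
    (τ : F ≃+* F) {r : ℕ} (hr : 0 < r) (hτr : ∀ a, τ^[r] a = a) {g : F} (hg : g ≠ 0) :
    ∃ (L : Type u) (_ : Field L) (_ : Algebra F L) (_ : FiniteDimensional F L)
      (_ : IsGalois F L) (τ' : L ≃+* L) (y : ℕ → L),
      (∀ a, τ' (algebraMap F L a) = algebraMap F L (τ a)) ∧
      (∀ i, y i ^ m = algebraMap F L (τ^[i] g)) ∧
      (∀ i, τ' (y i) = y (i + 1)) ∧
      IntermediateField.adjoin F (Set.range y) = ⊤ := by
  obtain ⟨y0, hy0⟩ := IsAlgClosed.exists_pow_nat_eq (algebraMap F (AlgebraicClosure F) g) hm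
  have hy0mem : y0 ∈ coverField τ m g := kummerSet_subset τ m g ⟨0, by simpa using hy0⟩
  have := finiteDimensional_coverField τ hm hr hτr g
  have := normal_coverField τ m g
  have := isSeparable_coverField τ hm hζ hg
  have : IsGalois F (coverField τ m g) := ⟨⟩
  set τ' := tauCover τ m g hr hτr with hτ'
  have hext : ∀ a, τ' (algebraMap F (coverField τ m g) a) =
      algebraMap F (coverField τ m g) (τ a) := by
    intro a
    apply Subtype.ext
    rw [coe_tauCover]
    exact tauBar_algebraMap τ a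
  set y : ℕ → coverField τ m g := fun i => τ'^[i] ⟨y0, hy0mem⟩ with hy
  have hysucc : ∀ i, τ' (y i) = y (i + 1) := fun i =>
    (Function.iterate_succ_apply' τ' i _).symm
  have hypow : ∀ i, y i ^ m = algebraMap F (coverField τ m g) (τ^[i] g) := by
    intro i
    induction i with
    | zero =>
      apply Subtype.ext
      simpa [hy] using hy0
    | succ i ih =>
      rw [← hysucc, ← map_pow, ih, hext, Function.iterate_succ_apply']
  have hyne : ∀ i, (y i : AlgebraicClosure F) ≠ 0 := by
    intro i h0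
    have h1 := hypow i
    have h2 : y i = 0 := Subtype.ext h0
    rw [h2, zero_pow hm.ne'] at h1
    exact iterate_ne_zero τ hg i ((map_eq_zero _).mp h1.symm)
  refine ⟨coverField τ m g, inferInstance, inferInstance, inferInstance, inferInstance, τ', y,
    hext, hypow, hysucc, ?_⟩
  rw [eq_top_iff]
  rintro ⟨x, hx⟩ -
  induction hx using IntermediateField.adjoin_induction with
  | mem z hz =>
    obtain ⟨i, hi⟩ := hz
    have h1 : z ^ m = (y i : AlgebraicClosure F) ^ m := by
      rw [hi]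
      have := congrArg (Subtype.val) (hypow i)
      simpa using this.symm
    obtain ⟨ξ, -, hξ⟩ := exists_root_of_unity_mul hm hζ (hyne i) h1
    have h2 : (⟨z, subset_adjoin F _ ⟨i, hi⟩⟩ : coverField τ m g) =
        algebraMap F (coverField τ m g) ξ * y i := Subtype.ext hξ
    rw [h2]
    exact mul_mem (IntermediateField.algebraMap_mem _ _)
      (IntermediateField.subset_adjoin F _ ⟨i, rfl⟩)
  | algebraMap a =>
    exact IntermediateField.algebraMap_mem _ a
  | add x y hx hy ihx ihy =>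
    exact add_mem ihx ihy
  | inv x hx ihx =>
    exact inv_mem ihx
  | mul x y hx hy ihx ihy =>
    exact mul_mem ihx ihy

end Closure

section Gal

variable (F : Type u) [Field F] (L : Type v) [Field L] [Algebra F L]

/-- `Γ = Gal(L/F)` as a subgroup of the ring automorphisms of `L` (the shape used by
`A2.H12.wallG`). -/
def galSubgroup : Subgroup (L ≃+* L) where
  carrier := {σ | ∀ a : F, σ (algebraMap F L a) = algebraMap F L a}
  mul_mem' := by
    intro σ ρ hσ hρ a
    rw [RingAut.mul_apply, hρ a, hσ a]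
  one_mem' := fun a => rfl
  inv_mem' := by
    intro σ hσ a
    rw [RingAut.inv_apply]
    apply σ.injective
    rw [RingEquiv.apply_symm_apply, hσ a]

variable {F L}

theorem mem_galSubgroup {σ : L ≃+* L} :
    σ ∈ galSubgroup F L ↔ ∀ a : F, σ (algebraMap F L a) = algebraMap F L a := Iff.rfl

/-- An `F`-algebra automorphism, as an element of `Γ`. -/
theorem algEquiv_mem_galSubgroup (σ : L ≃ₐ[F] L) :
    (σ : L ≃+* L) ∈ galSubgroup F L := fun a => σ.commutes a

/-- An element of `Γ`, as an `F`-algebra automorphism. -/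
def algEquivOfMem {σ : L ≃+* L} (hσ : σ ∈ galSubgroup F L) : L ≃ₐ[F] L :=
  AlgEquiv.ofRingEquiv (f := σ) hσ

@[simp] theorem algEquivOfMem_apply {σ : L ≃+* L} (hσ : σ ∈ galSubgroup F L) (x : L) :
    algEquivOfMem hσ x = σ x := rfl

/-- A lift `τ'` of `τ` maps `F` onto `F`, also backwards. -/
theorem symm_algebraMap_of_lift (τ : F ≃+* F) (τ' : L ≃+* L)
    (hext : ∀ a, τ' (algebraMap F L a) = algebraMap F L (τ a)) (a : F) :
    τ'.symm (algebraMap F L a) = algebraMap F L (τ.symm a) := by
  apply τ'.injective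
  rw [RingEquiv.apply_symm_apply, hext, RingEquiv.apply_symm_apply]

/-- `hnorm` of `wallG`: a lift of an automorphism of `F` normalises `Γ`. -/
theorem conj_mem_galSubgroup (τ : F ≃+* F) (τ' : L ≃+* L)
    (hext : ∀ a, τ' (algebraMap F L a) = algebraMap F L (τ a))
    {σ : L ≃+* L} (hσ : σ ∈ galSubgroup F L) : τ' * σ * τ'⁻¹ ∈ galSubgroup F L := by
  intro a
  rw [RingAut.mul_apply, RingAut.mul_apply, RingAut.inv_apply,
    symm_algebraMap_of_lift τ τ' hext, hσ, hext, RingEquiv.apply_symm_apply]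

/-- Any two lifts of `τ` differ by an element of `Γ`. -/
theorem mul_inv_mem_galSubgroup (τ : F ≃+* F) (τ' τ'' : L ≃+* L)
    (hext : ∀ a, τ' (algebraMap F L a) = algebraMap F L (τ a))
    (hext' : ∀ a, τ'' (algebraMap F L a) = algebraMap F L (τ a)) :
    τ'' * τ'⁻¹ ∈ galSubgroup F L := by
  intro a
  rw [RingAut.mul_apply, RingAut.inv_apply, symm_algebraMap_of_lift τ τ' hext, hext',
    RingEquiv.apply_symm_apply]

/-- Composing a lift of `τ` with an element of `Γ` gives a lift of `τ` (used for C7: change the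
lift so that it fixes a sheet). -/
theorem lift_mul_of_mem_galSubgroup (τ : F ≃+* F) (τ' : L ≃+* L)
    (hext : ∀ a, τ' (algebraMap F L a) = algebraMap F L (τ a))
    {σ : L ≃+* L} (hσ : σ ∈ galSubgroup F L) (a : F) :
    (σ * τ') (algebraMap F L a) = algebraMap F L (τ a) := by
  rw [RingAut.mul_apply, hext, hσ]

/-- `hζ` of `wallG`: `Γ` acts on an `m`-th root `y` of an element of `F` through `m`-th roots of
unity of `F`, which are fixed by any lift `τ'` of `τ` (`τ ζ = ζ`). -/
theorem exists_root_mul_of_mem_galSubgroup {m : ℕ} (hm : 0 < m) {ζ : F}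
    (hζ : IsPrimitiveRoot ζ m) (τ : F ≃+* F) (hτζ : τ ζ = ζ) (τ' : L ≃+* L)
    (hext : ∀ a, τ' (algebraMap F L a) = algebraMap F L (τ a))
    {y : L} (hy : y ≠ 0) {c : F} (hyc : y ^ m = algebraMap F L c)
    {σ : L ≃+* L} (hσ : σ ∈ galSubgroup F L) :
    ∃ ζ' : L, σ y = ζ' * y ∧ τ' ζ' = ζ' := by
  have h1 : σ y ^ m = y ^ m := by rw [← map_pow, hyc, hσ]
  obtain ⟨ξ, hξ1, hξ⟩ := exists_root_of_unity_mul (F := F) hm hζ hy h1
  refine ⟨algebraMap F L ξ, hξ, ?_⟩
  rw [hext, map_eq_of_pow_eq_one hm hζ τ hτζ hξ1]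

/-- **Exit lemma.**  If `τ' y / y` is `Γ`-invariant (the conclusion of `wallG`), `y ^ m = g`,
then `τ g = h ^ m * g` for some `h ∈ Fˣ`. -/
theorem exists_pow_of_invariant [FiniteDimensional F L] [IsGalois F L] {m : ℕ}
    (τ : F ≃+* F) (τ' : L ≃+* L)
    (hext : ∀ a, τ' (algebraMap F L a) = algebraMap F L (τ a))
    {y : L} (hy : y ≠ 0) {g : F} (hyg : y ^ m = algebraMap F L g)
    (hinv : ∀ σ ∈ galSubgroup F L, σ (τ' y / y) = τ' y / y) :
    ∃ h : F, h ≠ 0 ∧ τ g = h ^ m * g := by
  have hfix : ∀ f : L ≃ₐ[F] L, f (τ' y / y) = τ' y / y := fun f =>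
    hinv (f : L ≃+* L) (algEquiv_mem_galSubgroup f)
  obtain ⟨h, hh⟩ := (IsGalois.mem_range_algebraMap_iff_fixed (F := F) (E := L) (τ' y / y)).mpr hfix
  have hτy : τ' y ≠ 0 := (map_ne_zero τ').mpr hy
  refine ⟨h, ?_, ?_⟩
  · intro h0
    rw [h0, map_zero] at hh
    exact (div_ne_zero hτy hy) hh.symm
  · apply (algebraMap F L).injective
    rw [map_mul, map_pow, hh, div_pow, ← hyg, div_mul_cancel₀ _ (pow_ne_zero _ hy), ← map_pow,
      hyg, hext]

end Gal

end Fermat.Agent.A2.H852
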