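/-
A2 / piece THICK (helper852): FINITE THICKNESS at a crossing point, pure algebra, Mathlib only.

Setting: `R` a domain (in the application: the local ring of the normal model of `X₀(qM)` at a
point where the two components of the special fibre meet), `ℓ ∈ R` (the uniformiser of the base),
`𝔭₁ 𝔭₂` the two branches (`𝔭₁ ∩ 𝔭₂ ⊆ ℓR`, `𝔭₁ + 𝔭₂ ≠ R`), `S ∉ 𝔭₁`, `T ∉ 𝔭₂` with
`S * T = ℓ ^ n * h`.  If there are `D D' : R` with `D * D' = ℓ ^ c`, `D ∉ 𝔭₁` and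
`D ≡ ε * S ^ k (mod 𝔭₁)`, then `k * n ≤ c`.

In the application `D = Δ(t)/Δ(t^q)`, `D' = q¹² Δ(t^q)/Δ(t)` (integral over `ℤ[j]` by the landed
S28 `UnitPolyData`), `c = 12`, and `k ≥ 1` is the order of vanishing of `D mod 𝔭₁` at the crossing
point.  So the node iteration `node_normal_form_or` of `A2/H189/NodeAlg.lean` stops after at most
`12` steps: the thickness of every node of `X₀(qM)` at `q` is finite (and `≤ 12`), with NO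
completion, NO excellence, NO analytic normality.
-/
import Mathlib.RingTheory.Ideal.Maximal
import Mathlib.RingTheory.Ideal.Operations
import Mathlib.Tactic.LinearCombination
import Mathlib.Tactic.Ring

set_option autoImplicit false

namespace Fermat.Agent.A2.H852

open Ideal

variable {R : Type*} [CommRing R] [IsDomain R]

/-- Divisibility step: under the hypotheses, `ℓ ^ j ∣ S ^ k * D'` for all `j ≤ c`, provided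
`c ≤ k * n`. -/
theorem pow_dvd_mul_of_le (𝔭₁ 𝔭₂ : Ideal R) [𝔭₁.IsPrime] [𝔭₂.IsPrime] (ℓ S T h D D' : R)
    (n c k : ℕ) (hℓ0 : ℓ ≠ 0) (hℓ₁ : ℓ ∈ 𝔭₁) (hℓ₂ : ℓ ∈ 𝔭₂)
    (hcap : ∀ z, z ∈ 𝔭₁ → z ∈ 𝔭₂ → ℓ ∣ z)
    (hT : T ∉ 𝔭₂) (hST : S * T = ℓ ^ n * h) (hDD : D * D' = ℓ ^ c) (hD : D ∉ 𝔭₁)
    (hkn : c ≤ k * n) :
    ∀ j, j ≤ c → ℓ ^ j ∣ S ^ k * D' := by
  intro j
  induction j with
  | zero => intro _; simp
  | succ j ih =>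
    intro hj
    obtain ⟨z, hz⟩ := ih (Nat.le_of_succ_le hj)
    have hjc : j < c := hj
    have hℓj : ℓ ^ j ≠ 0 := pow_ne_zero _ hℓ0
    -- `z ∈ 𝔭₁`
    have h1 : z * D = ℓ ^ (c - j) * S ^ k := by
      apply mul_left_cancel₀ hℓj
      calc ℓ ^ j * (z * D) = (ℓ ^ j * z) * D := by ring
        _ = (S ^ k * D') * D := by rw [hz]
        _ = S ^ k * (D * D') := by ring
        _ = S ^ k * ℓ ^ c := by rw [hDD]
        _ = S ^ k * (ℓ ^ j * ℓ ^ (c - j)) := by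
            rw [← pow_add, Nat.add_sub_cancel' hjc.le]
        _ = ℓ ^ j * (ℓ ^ (c - j) * S ^ k) := by ring
    have hz1 : z ∈ 𝔭₁ := by
      have hmem : z * D ∈ 𝔭₁ := by
        rw [h1]
        apply Ideal.mul_mem_right
        exact Ideal.pow_mem_of_mem _ hℓ₁ _ (Nat.sub_pos_of_lt hjc)
      rcases (Ideal.IsPrime.mem_or_mem ‹𝔭₁.IsPrime› hmem) with h | h
      · exact h
      · exact absurd h hD
    -- `z ∈ 𝔭₂`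
    have hjkn : j < k * n := lt_of_lt_of_le hjc hkn
    have h2 : z * T ^ k = ℓ ^ (k * n - j) * (h ^ k * D') := by
      apply mul_left_cancel₀ hℓj
      calc ℓ ^ j * (z * T ^ k) = (ℓ ^ j * z) * T ^ k := by ring
        _ = (S ^ k * D') * T ^ k := by rw [hz]
        _ = (S * T) ^ k * D' := by ring
        _ = (ℓ ^ n * h) ^ k * D' := by rw [hST]
        _ = ℓ ^ (k * n) * (h ^ k * D') := by
            rw [mul_pow, ← pow_mul, mul_comm n k]; ring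
        _ = (ℓ ^ j * ℓ ^ (k * n - j)) * (h ^ k * D') := by
            rw [← pow_add, Nat.add_sub_cancel' hjkn.le]
        _ = ℓ ^ j * (ℓ ^ (k * n - j) * (h ^ k * D')) := by ring
    have hz2 : z ∈ 𝔭₂ := by
      have hmem : z * T ^ k ∈ 𝔭₂ := by
        rw [h2]
        apply Ideal.mul_mem_right
        exact Ideal.pow_mem_of_mem _ hℓ₂ _ (Nat.sub_pos_of_lt hjkn)
      rcases (Ideal.IsPrime.mem_or_mem ‹𝔭₂.IsPrime› hmem) with h | h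
      · exact h
      · exact absurd (Ideal.IsPrime.mem_of_pow_mem ‹𝔭₂.IsPrime› k h) hT
    obtain ⟨z', hz'⟩ := hcap z hz1 hz2
    exact ⟨z', by rw [hz, hz', pow_succ]; ring⟩

/-- **Thickness bound.**  `k * n ≤ c`. -/
theorem mul_le_of_unit_pair (𝔭₁ 𝔭₂ : Ideal R) [𝔭₁.IsPrime] [𝔭₂.IsPrime] (ℓ S T h D D' ε : R)
    (n c k : ℕ) (hℓ0 : ℓ ≠ 0) (hℓ₁ : ℓ ∈ 𝔭₁) (hℓ₂ : ℓ ∈ 𝔭₂)
    (hcap : ∀ z, z ∈ 𝔭₁ → z ∈ 𝔭₂ → ℓ ∣ z) (hsup : 𝔭₁ ⊔ 𝔭₂ ≠ ⊤)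
    (hS : S ∉ 𝔭₁) (hT : T ∉ 𝔭₂) (hST : S * T = ℓ ^ n * h) (hDD : D * D' = ℓ ^ c) (hD : D ∉ 𝔭₁)
    (hDS : D - ε * S ^ k ∈ 𝔭₁) :
    k * n ≤ c := by
  by_contra hlt
  rw [not_le] at hlt
  obtain ⟨G, hG⟩ := pow_dvd_mul_of_le 𝔭₁ 𝔭₂ ℓ S T h D D' n c k hℓ0 hℓ₁ hℓ₂ hcap hT hST hDD hD
    hlt.le c le_rfl
  have hℓc : ℓ ^ c ≠ 0 := pow_ne_zero _ hℓ0
  -- `G ∈ 𝔭₂`
  have h2 : G * T ^ k = ℓ ^ (k * n - c) * (h ^ k * D') := by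
    apply mul_left_cancel₀ hℓc
    calc ℓ ^ c * (G * T ^ k) = (ℓ ^ c * G) * T ^ k := by ring
      _ = (S ^ k * D') * T ^ k := by rw [hG]
      _ = (S * T) ^ k * D' := by ring
      _ = (ℓ ^ n * h) ^ k * D' := by rw [hST]
      _ = ℓ ^ (k * n) * (h ^ k * D') := by
          rw [mul_pow, ← pow_mul, mul_comm n k]; ring
      _ = (ℓ ^ c * ℓ ^ (k * n - c)) * (h ^ k * D') := by
          rw [← pow_add, Nat.add_sub_cancel' hlt.le]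
      _ = ℓ ^ c * (ℓ ^ (k * n - c) * (h ^ k * D')) := by ring
  have hG2 : G ∈ 𝔭₂ := by
    have hmem : G * T ^ k ∈ 𝔭₂ := by
      rw [h2]
      apply Ideal.mul_mem_right
      exact Ideal.pow_mem_of_mem _ hℓ₂ _ (Nat.sub_pos_of_lt hlt)
    rcases (Ideal.IsPrime.mem_or_mem ‹𝔭₂.IsPrime› hmem) with h | h
    · exact h
    · exact absurd (Ideal.IsPrime.mem_of_pow_mem ‹𝔭₂.IsPrime› k h) hT
  -- `G * D = S ^ k`
  have hGD : G * D = S ^ k := by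
    apply mul_left_cancel₀ hℓc
    calc ℓ ^ c * (G * D) = (ℓ ^ c * G) * D := by ring
      _ = (S ^ k * D') * D := by rw [hG]
      _ = S ^ k * (D * D') := by ring
      _ = ℓ ^ c * S ^ k := by rw [hDD]; ring
  -- `G * ε - 1 ∈ 𝔭₁`
  have h1 : S ^ k * (G * ε - 1) ∈ 𝔭₁ := by
    have : S ^ k * (G * ε - 1) = - (G * (D - ε * S ^ k)) := by
      linear_combination hGD
    rw [this]
    exact 𝔭₁.neg_mem (Ideal.mul_mem_left _ _ hDS)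
  have hGε : G * ε - 1 ∈ 𝔭₁ := by
    rcases (Ideal.IsPrime.mem_or_mem ‹𝔭₁.IsPrime› h1) with h | h
    · exact absurd (Ideal.IsPrime.mem_of_pow_mem ‹𝔭₁.IsPrime› k h) hS
    · exact h
  -- contradiction: `1 ∈ 𝔭₁ + 𝔭₂`
  apply hsup
  rw [Ideal.eq_top_iff_one]
  have : (1 : R) = -(G * ε - 1) + G * ε := by ring
  rw [this]
  exact Submodule.add_mem_sup (𝔭₁.neg_mem hGε) (Ideal.mul_mem_right _ _ hG2)

omit [IsDomain R] in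
/-- The exponent `k` is positive as soon as `c > 0`, `D' ∉ 𝔭₂` and `ε` is a unit. -/
theorem one_le_exponent (𝔭₁ 𝔭₂ : Ideal R) [𝔭₁.IsPrime] [𝔭₂.IsPrime] (ℓ S D D' ε : R)
    (c k : ℕ) (hℓ₂ : ℓ ∈ 𝔭₂) (hsup : 𝔭₁ ⊔ 𝔭₂ ≠ ⊤) (hc : 0 < c)
    (hDD : D * D' = ℓ ^ c) (hD' : D' ∉ 𝔭₂) (hε : IsUnit ε)
    (hDS : D - ε * S ^ k ∈ 𝔭₁) : 1 ≤ k := by
  by_contra hk
  have hk0 : k = 0 := by omega
  subst hk0
  rw [pow_zero, mul_one] at hDS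
  have hD2 : D ∈ 𝔭₂ := by
    have hmem : D * D' ∈ 𝔭₂ := by rw [hDD]; exact Ideal.pow_mem_of_mem _ hℓ₂ _ hc
    rcases (Ideal.IsPrime.mem_or_mem ‹𝔭₂.IsPrime› hmem) with h | h
    · exact h
    · exact absurd h hD'
  apply hsup
  have hεmem : ε ∈ 𝔭₁ ⊔ 𝔭₂ := by
    have : ε = -(D - ε) + D := by ring
    rw [this]
    exact Submodule.add_mem_sup (𝔭₁.neg_mem hDS) hD2
  exact Ideal.eq_top_of_isUnit_mem _ hεmem hε

/-- **Finite thickness.**  `n ≤ c`: if `S * T ∈ ℓ ^ n R` then `n ≤ c`. -/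
theorem thickness_le (𝔭₁ 𝔭₂ : Ideal R) [𝔭₁.IsPrime] [𝔭₂.IsPrime] (ℓ S T h D D' ε : R)
    (n c k : ℕ) (hℓ0 : ℓ ≠ 0) (hℓ₁ : ℓ ∈ 𝔭₁) (hℓ₂ : ℓ ∈ 𝔭₂)
    (hcap : ∀ z, z ∈ 𝔭₁ → z ∈ 𝔭₂ → ℓ ∣ z) (hsup : 𝔭₁ ⊔ 𝔭₂ ≠ ⊤)
    (hS : S ∉ 𝔭₁) (hT : T ∉ 𝔭₂) (hST : S * T = ℓ ^ n * h) (hc : 0 < c)
    (hDD : D * D' = ℓ ^ c) (hD : D ∉ 𝔭₁) (hD' : D' ∉ 𝔭₂) (hε : IsUnit ε)
    (hDS : D - ε * S ^ k ∈ 𝔭₁) :
    n ≤ c := by
  have h1 := mul_le_of_unit_pair 𝔭₁ 𝔭₂ ℓ S T h D D' ε n c k hℓ0 hℓ₁ hℓ₂ hcap hsup hS hT hST hDD hD hDS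
  have h2 := one_le_exponent 𝔭₁ 𝔭₂ ℓ S D D' ε c k hℓ₂ hsup hc hDD hD' hε hDS
  calc n = 1 * n := (one_mul n).symm
    _ ≤ k * n := Nat.mul_le_mul_right n h2
    _ ≤ c := h1

end Fermat.Agent.A2.H852
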