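/-
A2 / piece THICK (helper852), part 2: EXACT normal form at a node from a unit pair.

Combines `Fermat.Agent.A2.H189.node_normal_form_or` (finite normal form iteration inside the local
ring `R`) with `Fermat.Agent.A2.H852.thickness_le`: if `R` is a local domain with
`𝔪 = (S, T, ℓ)`, `S * T = ℓ * G`, the two branches are `𝔭₁ ∌ S`, `𝔭₂ ∌ T` with
`𝔭₁ ∩ 𝔭₂ ⊆ ℓ R`, and there is a "unit pair" `D * D' = ℓ ^ c` (`c > 0`) with `D ∉ 𝔭₁`, `D' ∉ 𝔭₂`,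
`D ≡ ε S ^ k (mod 𝔭₁)`, `ε` a unit, then the iteration STOPS: there are new coordinates
`S' ≡ S`, `T' ≡ T (mod ℓ)` with `S' * T' = ℓ ^ (t + 1) * unit` and `t + 1 ≤ c`.
In particular `c ≠ 0` in the normal form `S' T' = c` (no completion, no excellence).
-/
import Fermat.Agent.A2.H189.NodeAlg
import Fermat.Agent.A2.H852.Thickness

set_option autoImplicit false

namespace Fermat.Agent.A2.H852

open IsLocalRing

variable {R : Type*} [CommRing R] [IsDomain R] [IsLocalRing R]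

omit [IsDomain R] in
/-- In a local ring two proper ideals are never comaximal. -/
theorem sup_ne_top_of_isPrime (𝔭₁ 𝔭₂ : Ideal R) [𝔭₁.IsPrime] [𝔭₂.IsPrime] : 𝔭₁ ⊔ 𝔭₂ ≠ ⊤ := by
  intro h
  have h1 : 𝔭₁ ≤ maximalIdeal R := IsLocalRing.le_maximalIdeal (Ideal.IsPrime.ne_top ‹_›)
  have h2 : 𝔭₂ ≤ maximalIdeal R := IsLocalRing.le_maximalIdeal (Ideal.IsPrime.ne_top ‹_›)
  have h3 : (⊤ : Ideal R) ≤ maximalIdeal R := h ▸ sup_le h1 h2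
  exact (IsLocalRing.maximalIdeal.isMaximal R).ne_top (top_le_iff.mp h3)

omit [IsDomain R] [IsLocalRing R] in
/-- Congruence of `k`-th powers modulo an ideal. -/
theorem pow_sub_pow_mem_of_sub_mem (I : Ideal R) {x y : R} (h : x - y ∈ I) (k : ℕ) :
    x ^ k - y ^ k ∈ I := by
  obtain ⟨z, hz⟩ := sub_dvd_pow_sub_pow x y k
  rw [hz]
  exact Ideal.mul_mem_right _ _ h

/-- **Exact normal form at a node of finite thickness.** -/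
theorem node_normal_form_exact (𝔭₁ 𝔭₂ : Ideal R) [𝔭₁.IsPrime] [𝔭₂.IsPrime]
    (ℓ S T G D D' ε : R) (c k : ℕ) (hℓ0 : ℓ ≠ 0) (hℓ₁ : ℓ ∈ 𝔭₁) (hℓ₂ : ℓ ∈ 𝔭₂)
    (hcap : ∀ z, z ∈ 𝔭₁ → z ∈ 𝔭₂ → ℓ ∣ z)
    (hm : maximalIdeal R = Ideal.span {S, T, ℓ})
    (hS : S ∉ 𝔭₁) (hT : T ∉ 𝔭₂) (hST : S * T = ℓ * G) (hc : 0 < c)
    (hDD : D * D' = ℓ ^ c) (hD : D ∉ 𝔭₁) (hD' : D' ∉ 𝔭₂) (hε : IsUnit ε)
    (hDS : D - ε * S ^ k ∈ 𝔭₁) :
    ∃ S' T' G' : R, (∃ β, S' = S - ℓ * β) ∧ (∃ α, T' = T - ℓ * α) ∧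
      maximalIdeal R = Ideal.span {S', T', ℓ} ∧
      ∃ t, t + 1 ≤ c ∧ S' * T' = ℓ ^ (t + 1) * G' ∧ IsUnit G' := by
  obtain ⟨S', T', G', ⟨β, hβ⟩, ⟨α, hα⟩, hm', hcase⟩ :=
    Fermat.Agent.A2.H189.node_normal_form_or ℓ S T G hm hST c
  have hsup := sup_ne_top_of_isPrime 𝔭₁ 𝔭₂
  have hS' : S' ∉ 𝔭₁ := by
    intro h
    apply hS
    have : S = S' + ℓ * β := by rw [hβ]; ring
    rw [this]
    exact 𝔭₁.add_mem h (Ideal.mul_mem_right _ _ hℓ₁)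
  have hT' : T' ∉ 𝔭₂ := by
    intro h
    apply hT
    have : T = T' + ℓ * α := by rw [hα]; ring
    rw [this]
    exact 𝔭₂.add_mem h (Ideal.mul_mem_right _ _ hℓ₂)
  have hDS' : D - ε * S' ^ k ∈ 𝔭₁ := by
    have h1 : S - S' ∈ 𝔭₁ := by
      have : S - S' = ℓ * β := by rw [hβ]; ring
      rw [this]
      exact Ideal.mul_mem_right _ _ hℓ₁
    have h2 := pow_sub_pow_mem_of_sub_mem 𝔭₁ h1 k
    have : D - ε * S' ^ k = (D - ε * S ^ k) + ε * (S ^ k - S' ^ k) := by ring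
    rw [this]
    exact 𝔭₁.add_mem hDS (Ideal.mul_mem_left _ _ h2)
  refine ⟨S', T', G', ⟨β, hβ⟩, ⟨α, hα⟩, hm', ?_⟩
  rcases hcase with ⟨t, _, hprod, hu⟩ | hprod
  · refine ⟨t, ?_, hprod, hu⟩
    exact thickness_le 𝔭₁ 𝔭₂ ℓ S' T' G' D D' ε (t + 1) c k hℓ0 hℓ₁ hℓ₂ hcap hsup hS' hT' hprod hc
      hDD hD hD' hε hDS'
  · exfalso
    have := thickness_le 𝔭₁ 𝔭₂ ℓ S' T' G' D D' ε (c + 2) c k hℓ0 hℓ₁ hℓ₂ hcap hsup hS' hT' hprod hc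
      hDD hD hD' hε hDS'
    omega

end Fermat.Agent.A2.H852
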